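import Fermat.Statements.S26
import Fermat.Agent.S26.H95_Wire2
import Fermat.Agent.S26.C.X.H49_PCore
import Fermat.Agent.S26.C.X.H14_Curves
import Fermat.Agent.S26.C.X.H42_CubePCFinal

/-!
# S26: DRY RUN of the final file (helper95) — everything but `X.Stmt_PRIG` is plugged

`result_of_prig : X.Stmt_PRIG → (frozen statement of S26)`.  The final `Fermat/Agent/S26.lean` is
the template with `exact Fermat.Agent.S26.Dry.H95.result_of_prig <proof of PRIG> K f L hc hA g n hn`.
-/

set_option autoImplicit false
open CategoryTheory CategoryTheory.Limits AlgebraicGeometry NeronModelInfra GoodReductionJacobian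
universe u
open GoodReductionJacobian GoodReductionJacobian.RelativeGroupLaw

namespace Fermat.Agent.S26.Dry.H95

/-- the cube side from PRIG alone -/
theorem pcore_of_prig (hP : C.X.Stmt_PRIG.{u}) : C.Stmt_PCORE.{u} :=
  C.X.H49.pcore_of_leaves hP C.X.H14v.stmt_CURVES C.X.H42.stmt_CUBEPC_of

/-- the frozen statement of S26 from PRIG alone -/
theorem result_of_prig (hP : C.X.Stmt_PRIG.{u})
    (K : Type u) [Field K] [IsAlgClosed K] {A : Scheme.{u}} (f : A ⟶ Spec (CommRingCat.of K))
    (L : RelativeGroupLaw K f) (hc : L.IsCommutative) (hA : AbelianSchemePropertyBundle K f)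
    (g : ℕ) [SmoothOfRelativeDimension g f] (n : ℕ) (hn : (n : K) ≠ 0) :
    Nat.card {x : SchemeHomOver (𝟙 (Spec (CommRingCat.of K))) f //
        L.IsTorsionPoint (𝟙 (Spec (CommRingCat.of K))) n x} = n ^ (2 * g) :=
  Fermat.Agent.S26.H95.s26_of_pcore (pcore_of_prig hP) K f L hc hA g n hn

end Fermat.Agent.S26.Dry.H95
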